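import Fermat.Agent.S17.Defs
import Fermat.Agent.S27.WRR2

/-!
# S17, block F (function fields): SKELETON (statements only; WIP, never imported by S17.lean)

Owner of the skeleton: helper17.  Every statement below is a task `S17-F*`; the final files are
`Fermat/Agent/S17/F/<Name>.lean`, namespace `Fermat.Agent.S17.F`, same statement and same name.
Here the namespace is `Fermat.Agent.S17.FSkel`.

Notation: `c₀ = h1Bound K F`, `g = genusFF K F`, `L D = riemannRochSpace D`.
-/

set_option autoImplicit false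

noncomputable section

namespace Fermat.Agent.S17.FSkel

open AlgebraicCurve Fermat.Agent.S24.FF Fermat.Agent.S27 Module

variable {K F : Type*} [Field K] [Field F] [Algebra K F] [IsAlgClosed K] [CharZero K] [IsFF1 K F]
  [NonConst K F]

/-! ## F0  (file F/Basic.lean) -/

theorem finrank_L_eq (D : Divisor K F) (h : (h1Bound K F : ℤ) ≤ Divisor.degree D) :
    (finrank K (riemannRochSpace D) : ℤ) = Divisor.degree D + 1 - genusFF K F := by
  sorry

theorem finrank_L_le (D : Divisor K F) (h : 0 ≤ Divisor.degree D) :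
    (finrank K (riemannRochSpace D) : ℤ) ≤ Divisor.degree D + 1 := by
  sorry

theorem genusFF_le : genusFF K F ≤ h1Bound K F + 1 := by
  sorry

theorem mem_L_sub_pt_iff (D : Divisor K F) (P : Place K F) (f : F) :
    f ∈ riemannRochSpace (D - pt P) ↔ f ∈ riemannRochSpace D ∧ (f = 0 ∨ - D P < P.ord f) := by
  sorry

/-- no base points in large degree -/
theorem exists_mem_L_ord_eq (D : Divisor K F) (P : Place K F)
    (h : (h1Bound K F : ℤ) + 1 ≤ Divisor.degree D) :
    ∃ f ∈ riemannRochSpace D, f ≠ 0 ∧ P.ord f = - D P := by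
  sorry

theorem L_mul_L_le (A B : Divisor K F) :
    riemannRochSpace A * riemannRochSpace B ≤ riemannRochSpace (A + B) := by
  sorry

/-- multiplication by a function -/
theorem map_mulLeft_L (D : Divisor K F) (s : F) (hs : s ≠ 0) :
    (riemannRochSpace D).map (LinearMap.mulLeft K s) = riemannRochSpace (D - Riemann.divOf s) := by
  sorry

-- `Infinite (Place K F)` : `Fermat.Agent.S27.infinite_place` (file S27/FibBasic.lean)

/-! ## F2  (file F/Avoid.lean) -/

theorem exists_mem_forall_ord_eq_of_le (W : Submodule K F) (D : Divisor K F)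
    (hW : W ≤ riemannRochSpace D) (hW0 : W ≠ ⊥) (S : Finset (Place K F))
    (hS : ∀ P ∈ S, ∃ f ∈ W, f ≠ 0 ∧ P.ord f = - D P) :
    ∃ f ∈ W, f ≠ 0 ∧ ∀ P ∈ S, P.ord f = - D P := by
  sorry

theorem exists_mem_L_forall_ord_eq (D : Divisor K F) (S : Finset (Place K F))
    (h : (h1Bound K F : ℤ) + 1 ≤ Divisor.degree D) :
    ∃ f ∈ riemannRochSpace D, f ≠ 0 ∧ ∀ P ∈ S, P.ord f = - D P := by
  sorry

/-- a base point free pencil inside `W` -/
theorem exists_pencil (W : Submodule K F) (D : Divisor K F)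
    (hW : W ≤ riemannRochSpace D) (hS : ∀ P : Place K F, ∃ f ∈ W, f ≠ 0 ∧ P.ord f = - D P) :
    ∃ s₁ ∈ W, ∃ s₂ ∈ W, s₁ ≠ 0 ∧ s₂ ≠ 0 ∧
      ∀ P : Place K F, P.ord s₁ = - D P ∨ P.ord s₂ = - D P := by
  sorry

/-! ## F5  (file F/SupInf.lean) -/

theorem L_inf_L (D₁ D₂ : Divisor K F) :
    riemannRochSpace D₁ ⊓ riemannRochSpace D₂ = riemannRochSpace (D₁ ⊓ D₂) := by
  sorry

theorem degree_inf_add_degree_sup (D₁ D₂ : Divisor K F) :
    Divisor.degree (D₁ ⊓ D₂) + Divisor.degree (D₁ ⊔ D₂)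
      = Divisor.degree D₁ + Divisor.degree D₂ := by
  sorry

theorem L_sup_L (D₁ D₂ : Divisor K F) (h : (h1Bound K F : ℤ) ≤ Divisor.degree (D₁ ⊓ D₂)) :
    riemannRochSpace D₁ ⊔ riemannRochSpace D₂ = riemannRochSpace (D₁ ⊔ D₂) := by
  sorry

/-! ## F3  (file F/Pencil.lean): the base point free pencil trick -/

theorem span_pair_mul_L (A B : Divisor K F) (s₁ s₂ : F) (h₁ : s₁ ∈ riemannRochSpace A)
    (h₂ : s₂ ∈ riemannRochSpace A) (hs₁ : s₁ ≠ 0) (hs₂ : s₂ ≠ 0)
    (hbpf : ∀ P : Place K F, P.ord s₁ = - A P ∨ P.ord s₂ = - A P)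
    (hdeg : (h1Bound K F : ℤ) + Divisor.degree A ≤ Divisor.degree B) :
    Submodule.span K {s₁, s₂} * riemannRochSpace B = riemannRochSpace (A + B) := by
  sorry

/-! ## F4  (file F/Castelnuovo.lean) -/

theorem L_mul_L (A B : Divisor K F) (hA : 2 * (h1Bound K F : ℤ) + 1 ≤ Divisor.degree A)
    (hB : 2 * (h1Bound K F : ℤ) + 1 ≤ Divisor.degree B) :
    riemannRochSpace A * riemannRochSpace B = riemannRochSpace (A + B) := by
  sorry

/-! ## F6  (file F/Hilb.lean) and F6' (file F/Lsp.lean) -/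

theorem Lsp_zero (P₀ : Place K F) (m : ℕ) : Lsp P₀ m 0 = Lm P₀ m := by
  sorry

theorem Lsp_le_Lm (P₀ : Place K F) (m : ℕ) (E : Divisor K F) (hE : 0 ≤ E) :
    Lsp P₀ m E ≤ Lm P₀ m := by
  sorry

theorem Lm_mono (P₀ : Place K F) {m m' : ℕ} (h : m ≤ m') : Lm P₀ m ≤ Lm P₀ m' := by
  sorry

theorem finrank_Lm (P₀ : Place K F) (m : ℕ) (hm : h1Bound K F ≤ m) :
    finrank K (Lm P₀ m) + genusFF K F = m + 1 := by
  sorry

theorem finrank_Lsp (P₀ : Place K F) (m n : ℕ) (E : Divisor K F)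
    (hdeg : Divisor.degree E = n) (hm : n + h1Bound K F ≤ m) :
    finrank K (Lsp P₀ m E) + n + genusFF K F = m + 1 := by
  sorry

theorem Lsp_mul_Lsp (P₀ : Place K F) (m m' n n' : ℕ) (E E' : Divisor K F)
    (hdeg : Divisor.degree E = n) (hdeg' : Divisor.degree E' = n')
    (hm : n + 2 * h1Bound K F + 1 ≤ m) (hm' : n' + 2 * h1Bound K F + 1 ≤ m') :
    Lsp P₀ m E * Lsp P₀ m' E' = Lsp P₀ (m + m') (E + E') := by
  sorry

theorem Lsp_add_pt_base (P₀ : Place K F) (m : ℕ) (E : Divisor K F) :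
    Lsp P₀ (m + 1) (E + pt P₀) = Lsp P₀ m E := by
  sorry

theorem Lsp_injective (P₀ : Place K F) (m n : ℕ) (E E' : Divisor K F)
    (hdeg : Divisor.degree E = n) (hdeg' : Divisor.degree E' = n)
    (hm : n + h1Bound K F + 1 ≤ m) (h : Lsp P₀ m E = Lsp P₀ m E') : E = E' := by
  sorry

/-- **HILB**: a subspace of `L(m P₀)` of codimension at most `n` whose product with `L(k P₀)` has
codimension at least `n` is `L(m P₀ - E)` for an effective divisor `E` of degree `n`. -/
theorem exists_eq_Lsp (P₀ : Place K F) (m k n : ℕ) (W : Submodule K F) (hW : W ≤ Lm P₀ m)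
    (hcodim : finrank K (Lm P₀ m) ≤ finrank K W + n)
    (hmul : finrank K (Lm P₀ k * W : Submodule K F) + n ≤ finrank K (Lm P₀ (m + k)))
    (hm : n + genusFF K F + h1Bound K F ≤ m) (hk : m + h1Bound K F ≤ k) :
    ∃ E : Divisor K F, 0 ≤ E ∧ Divisor.degree E = n ∧ W = Lsp P₀ m E := by
  sorry

/-! ## F8  (file F/Special.lean) -/

theorem card_add_degree_lt (D : Divisor K F) (hD : ¬ Subsingleton (H1 D))
    (S : Finset (Place K F))
    (hS : ∀ P ∈ S, finrank K (riemannRochSpace (D + pt P)) ≠ finrank K (riemannRochSpace D)) :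
    (S.card : ℤ) + Divisor.degree D < h1Bound K F := by
  sorry

theorem exists_nonspecial_completion (T₀ : Finset (Place K F)) (hT₀ : h1Bound K F ≤ T₀.card)
    (E : Divisor K F) (hE : 0 ≤ E) (hl : finrank K (riemannRochSpace E) = 1)
    (hdeg : Divisor.degree E ≤ genusFF K F) :
    ∃ T : Divisor K F, 0 ≤ T ∧ T.support ⊆ T₀ ∧ Divisor.degree (E + T) = genusFF K F ∧
      finrank K (riemannRochSpace (E + T)) = 1 := by
  sorry

/-! ## F9  (file F/Reduced.lean) -/

theorem exists_isRed (P₀ : Place K F) (x : Pic0 K F) : ∃ E : Divisor K F, IsRed P₀ x E := by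
  sorry

theorem IsRed.finrank_L {P₀ : Place K F} {x : Pic0 K F} {E : Divisor K F} (h : IsRed P₀ x E) :
    finrank K (riemannRochSpace E) = 1 := by
  sorry

theorem IsRed.unique {P₀ : Place K F} {x : Pic0 K F} {E E' : Divisor K F} (h : IsRed P₀ x E)
    (h' : IsRed P₀ x E') : E = E' := by
  sorry

theorem IsRed.degree_le {P₀ : Place K F} {x : Pic0 K F} {E : Divisor K F} (h : IsRed P₀ x E) :
    Divisor.degree E ≤ genusFF K F := by
  sorry

theorem IsRed.apply_base {P₀ : Place K F} {x : Pic0 K F} {E : Divisor K F} (h : IsRed P₀ x E) :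
    E P₀ = 0 := by
  sorry

/-- effective representatives of every degree `≥ g` -/
theorem exists_effective_of_degree (P₀ : Place K F) (x : Pic0 K F) (r : ℕ)
    (hr : genusFF K F ≤ r) :
    ∃ E : Divisor K F, 0 ≤ E ∧ Divisor.degree E = r ∧ cls (E - r • pt P₀) = x := by
  sorry

/-! ## F10  (file F/Lead.lean): leading coefficients -/

theorem exists_ord_eq_one (P : Place K F) : ∃ t : F, P.ord t = 1 := by
  sorry

theorem lead_add (P : Place K F) (t : F) (ht : P.ord t = 1) (D : Divisor K F) (f g : F)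
    (hf : f ∈ riemannRochSpace D) (hg : g ∈ riemannRochSpace D) :
    lead P t (D P) (f + g) = lead P t (D P) f + lead P t (D P) g := by
  sorry

theorem lead_smul (P : Place K F) (t : F) (ht : P.ord t = 1) (D : Divisor K F) (c : K) (f : F)
    (hf : f ∈ riemannRochSpace D) :
    lead P t (D P) (c • f) = c * lead P t (D P) f := by
  sorry

theorem lead_mul (P : Place K F) (t : F) (ht : P.ord t = 1) (D₁ D₂ : Divisor K F) (f g : F)
    (hf : f ∈ riemannRochSpace D₁) (hg : g ∈ riemannRochSpace D₂) :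
    lead P t ((D₁ + D₂) P) (f * g) = lead P t (D₁ P) f * lead P t (D₂ P) g := by
  sorry

theorem lead_eq_zero_iff (P : Place K F) (t : F) (ht : P.ord t = 1) (D : Divisor K F) (f : F)
    (hf : f ∈ riemannRochSpace D) :
    lead P t (D P) f = 0 ↔ f ∈ riemannRochSpace (D - pt P) := by
  sorry

end Fermat.Agent.S17.FSkel
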