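import Fermat.Agent.S17.Top.Interface
import Fermat.Agent.S17.Top.Descent
import Fermat.Agent.S17.WIP.FSkeleton
import Fermat.Agent.S17.W.Main

/-!
# S17, block NG (Northcott + Galois glue) and the top level assembly: SKELETON (WIP)

Owner of the skeleton: helper17.  Final files: `Fermat/Agent/S17/NG/<Name>.lean`, namespace
`Fermat.Agent.S17.NG`, same statements and names (here the namespace is `Fermat.Agent.S17.NGSkel`).
-/

set_option autoImplicit false

noncomputable section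

namespace Fermat.Agent.S17.NGSkel

open AlgebraicCurve Fermat.Agent.S24 Fermat.Agent.S24.FF Fermat.Agent.S27 ModularCurve Polynomial

/-! ## NG0 (files NG/CoeffHeight.lean, NG/Conj.lean, NG/Bounded.lean): Northcott in bounded degree.
Mathlib + `TP/Height.lean` + `Top/Interface.lean` only. -/

/-- NG0a: the height of the coefficient vector of `∏ (X - α i)`. -/
theorem exists_height_coeff_prod_le (H : TP.HeightFn Qb) (k : ℕ) :
    ∃ C₀ : ℝ, ∀ α : Fin k → Qb,
      H.h (fun j : Fin (k + 1) => (∏ i, (X - C (α i))).coeff (j : ℕ)) ≤ ∑ i, H.h ![1, α i] + C₀ := by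
  sorry

/-- NG0b: an element of a finite Galois stable set has small degree. -/
theorem natDegree_minpoly_le_card (S : Finset Qb) (hS : ∀ σ : GQ, ∀ a ∈ S, σ a ∈ S) (α : Qb)
    (hα : α ∈ S) : (minpoly ℚ α).natDegree ≤ S.card := by
  sorry

/-- NG0c: Northcott for algebraic numbers of bounded degree. -/
theorem finite_setOf_natDegree_le_height_le (H : TP.HeightFn Qb) (hH : IsArith H) (d : ℕ)
    (B : ℝ) : {α : Qb | (minpoly ℚ α).natDegree ≤ d ∧ H.h ![1, α] ≤ B}.Finite := by
  sorry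

/-! ## NG1, NG2, NG4 (files NG/Ev.lean, NG/RedEquiv.lean, NG/Fibre.lean): general function fields -/

section General

variable {K F : Type*} [Field K] [Field F] [Algebra K F] [IsAlgClosed K] [CharZero K] [IsFF1 K F]

/-- NG1 -/
theorem ev_smul (g : SemilinearAut K F) (P : Place K F) (f : F) :
    ev (g • P) (g • f) = SemilinearAut.baseAut g (ev P f) := by
  sorry

/-- NG2a -/
theorem cls_smul (g : SemilinearAut K F) (D : Divisor K F) : cls (g • D) = g • cls D := by
  sorry

/-- NG2b -/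
theorem isRed_smul (g : SemilinearAut K F) {P₀ : Place K F} {x : Pic0 K F} {E : Divisor K F}
    (hP : g • P₀ = P₀) (h : IsRed P₀ x E) : IsRed P₀ (g • x) (g • E) := by
  sorry

/-- NG2c -/
theorem isRed_redDiv [NonConst K F] (P₀ : Place K F) (x : Pic0 K F) :
    IsRed P₀ x (redDiv P₀ x) := by
  sorry

/-- NG2d -/
theorem smul_redDiv [NonConst K F] (g : SemilinearAut K F) {P₀ : Place K F} {x : Pic0 K F}
    (hP : g • P₀ = P₀) (hx : g • x = x) : g • redDiv P₀ x = redDiv P₀ x := by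
  sorry

/-- NG4a -/
theorem finite_setOf_ev_eq (x : F) (hx : ¬ ∃ c : K, x = algebraMap K F c) (c : K) :
    {P : Place K F | 0 ≤ P.ord x ∧ ev P x = c}.Finite := by
  sorry

/-- NG4b -/
theorem finite_setOf_effective (T : Set (Place K F)) (hT : T.Finite) (d : ℤ) :
    {E : Divisor K F | 0 ≤ E ∧ (↑E.support : Set (Place K F)) ⊆ T ∧ Divisor.degree E ≤ d}.Finite := by
  sorry

/-- NG4c -/
theorem sumD_nonneg (h : Place K F → ℝ) (hh : ∀ P, 0 ≤ h P) (E : Divisor K F) (hE : 0 ≤ E) :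
    0 ≤ sumD h E := by
  sorry

/-- NG4d -/
theorem le_sumD (h : Place K F → ℝ) (hh : ∀ P, 0 ≤ h P) (E : Divisor K F) (hE : 0 ≤ E)
    (P : Place K F) (hP : P ∈ E.support) : h P ≤ sumD h E := by
  sorry

end General

/-! ## NG5 (file NG/Aux.lean): the abstract finiteness statement -/

theorem finite_eta_le_aux {F : Type} [Field F] [Algebra Qb F] [IsFF1 Qb F] [NonConst Qb F]
    (H : TP.HeightFn Qb) (hH : IsArith H) (P₀ : Place Qb F) (o : HtOut H P₀)
    (γ : GQ →* SemilinearAut Qb F) (hγ : ∀ (σ : GQ) (a : Qb), SemilinearAut.baseAut (γ σ) a = σ a)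
    (hP₀ : ∀ σ, γ σ • P₀ = P₀) (μ : ℕ) (x : F) (hx : x ∈ Lm P₀ μ) (hfix : ∀ σ, γ σ • x = x)
    (hnc : ¬ ∃ c : Qb, x = algebraMap Qb F c) (B : ℝ) :
    {z : Pic0 Qb F | (∀ σ, γ σ • z = z) ∧ o.eta z ≤ B}.Finite := by
  sorry

/-! ## NG3 (file NG/FixedFun.lean): a Galois fixed nonconstant function with poles only at the cusp -/

theorem exists_fixed_nonconst (N : ℕ) [NeZero N] :
    ∃ (μ : ℕ) (x : FN N), x ∈ Lm (W.cusp N) μ ∧ (∀ σ : GQ, arithmeticGalois (modularFunctionFieldFull N) σ • x = x) ∧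
      ¬ ∃ c : Kbar, x = algebraMap Kbar (FN N) c := by
  sorry

/-! ## NG6 (file NG/Main.lean) -/

theorem finite_eta_le (N : ℕ) [NeZero N] (H : TP.HeightFn Qb) (hH : IsArith H)
    (o : HtOut H (W.cusp N)) (B : ℝ) :
    {z : JZero N | z ∈ FixedPoints.addSubgroup GQ (JZero N) ∧ o.eta z ≤ B}.Finite := by
  sorry

/-! ## Top (file Top/Main.lean) -/

theorem heightData_of (N : ℕ) [NeZero N] (H : TP.HeightFn Qb) (hH : IsArith H)
    (o : HtOut H (W.cusp N)) : HeightData N := by
  sorry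

theorem fg_of (N : ℕ) [NeZero N] (hKL : Fermat.Agent.GAL.KLStatement) (hD : HeightData N) :
    AddGroup.FG ↥(FixedPoints.addSubgroup GQ (JZero N)) := by
  obtain ⟨f, eta, Z, C, h1, h2, h3, h4⟩ := hD
  exact fg_of_height_data _ f eta Z C h1 h2 h3 h4 (W.weakMW hKL N)

end Fermat.Agent.S17.NGSkel
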