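import Mathlib

/-! # S17 tools (Mathlib only): skeleton of exact statements.
WIP file, never imported by S17.lean.  Each node is proved in its own file
`Fermat/Agent/S17/Tools/<Name>.lean`, namespace `Fermat.Agent.S17`, SAME statement, same name. -/

set_option autoImplicit false

noncomputable section

namespace Fermat.Agent.S17.Skel

open MvPolynomial Height

/-! ## T1-T4. Valuative criterion for heights -/

/-- T1 (file Tools/VC.lean). -/
theorem exists_integral_equation_of_valuative {R : Type} [CommRing R] (a : R) {κ : Type} (b : κ → R)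
    (h : ∀ (Ω : Type) [Field Ω] [IsAlgClosed Ω] (V : ValuationSubring Ω) (ψ : R →+* Ω),
      (∀ r, ψ r ∈ V) → ψ a ≠ 0 → ∃ j, V.valuation (ψ a) ≤ V.valuation (ψ (b j))) :
    ∃ (n : ℕ) (c : ℕ → R), 0 < n ∧ (∀ i, c i ∈ (Ideal.span (Set.range b)) ^ i) ∧
      a ^ n = ∑ i ∈ Finset.Icc 1 n, c i * a ^ (n - i) := by
  sorry

/-- The integral relation used below: `a` is integral over the ideal `(b)` "on the set `S`". -/
def IntegralOn {k σ κ : Type} [Field k] (S : Set (σ → k)) (a : MvPolynomial σ k)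
    (b : κ → MvPolynomial σ k) : Prop :=
  ∃ (n : ℕ) (c : ℕ → MvPolynomial σ k), 0 < n ∧ (∀ i, c i ∈ (Ideal.span (Set.range b)) ^ i) ∧
    ∀ s ∈ S, eval s a ^ n = ∑ i ∈ Finset.Icc 1 n, eval s (c i) * eval s a ^ (n - i)

/-- The valuative hypothesis: `y` runs through the `V`-points satisfying all polynomial identities
valid on `S`. -/
def ValuativeLE {k σ κ : Type} [Field k] (S : Set (σ → k)) (a : MvPolynomial σ k)
    (b : κ → MvPolynomial σ k) : Prop :=
  ∀ (Ω : Type) [Field Ω] [IsAlgClosed Ω] [Algebra k Ω] (V : ValuationSubring Ω),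
    (∀ c : k, algebraMap k Ω c ∈ V) → ∀ y : σ → Ω, (∀ i, y i ∈ V) →
    (∀ G : MvPolynomial σ k, (∀ s ∈ S, eval s G = 0) → aeval y G = 0) →
    aeval y a ≠ 0 → ∃ j, V.valuation (aeval y a) ≤ V.valuation (aeval y (b j))

/-- T2 (file Tools/VCPoly.lean), from T1 with `R = MvPolynomial σ k ⧸ vanishing ideal of S`. -/
theorem integralOn_of_valuativeLE {k σ κ : Type} [Field k] (S : Set (σ → k))
    (a : MvPolynomial σ k) (b : κ → MvPolynomial σ k) (h : ValuativeLE S a b) :
    IntegralOn S a b := by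
  sorry

/-- The normalisation hypothesis of T3. -/
def Normalizable {K σ ι κ : Type} [Field K] (S : Set (σ → K)) (a : ι → MvPolynomial σ K)
    (b : κ → MvPolynomial σ K) : Prop :=
  ∀ (v : AbsoluteValue K ℝ), ∀ y ∈ S, ∃ y' ∈ S, ∃ c : K, c ≠ 0 ∧ (∀ i, v (y' i) ≤ 1) ∧
    (∀ i, eval y (a i) = c * eval y' (a i)) ∧ (∀ j, eval y (b j) = c * eval y' (b j))

/-- T3 (file Tools/ICHeight.lean). -/
theorem logHeight_le_of_integralOn {K σ ι κ : Type} [Field K] [AdmissibleAbsValues K]
    [Finite σ] [Finite ι] [Finite κ] (S : Set (σ → K)) (a : ι → MvPolynomial σ K)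
    (b : κ → MvPolynomial σ K) (hrel : ∀ i, IntegralOn S (a i) b) (hnorm : Normalizable S a b) :
    ∃ C : ℝ, ∀ y ∈ S, (fun i => eval y (a i)) ≠ 0 →
      logHeight (fun i => eval y (a i)) ≤ logHeight (fun j => eval y (b j)) + C := by
  sorry

/-- T4 (file Tools/VCH.lean) = T2 + T3. -/
theorem logHeight_le_of_valuativeLE {K σ ι κ : Type} [Field K] [AdmissibleAbsValues K]
    [Finite σ] [Finite ι] [Finite κ] (S : Set (σ → K)) (a : ι → MvPolynomial σ K)
    (b : κ → MvPolynomial σ K) (hval : ∀ i, ValuativeLE S (a i) b) (hnorm : Normalizable S a b) :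
    ∃ C : ℝ, ∀ y ∈ S, (fun i => eval y (a i)) ≠ 0 →
      logHeight (fun i => eval y (a i)) ≤ logHeight (fun j => eval y (b j)) + C := by
  sorry

/-! ## T5. Minors -/

/-- All maximal minors of an `n × d` matrix. (file Tools/Minors.lean, definitions + T5a-c) -/
def minors {R : Type*} [CommRing R] {n d : ℕ} (A : Matrix (Fin n) (Fin d) R) :
    (Fin n ↪o Fin d) → R := fun S => (A.submatrix id S).det

/-- T5a Cauchy-Binet. -/
theorem det_mul_eq_sum_minors {R : Type*} [CommRing R] {n d : ℕ} (A : Matrix (Fin n) (Fin d) R)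
    (B : Matrix (Fin d) (Fin n) R) :
    (A * B).det = ∑ S : Fin n ↪o Fin d, (A.submatrix id S).det * (B.submatrix S id).det := by
  sorry

/-- T5b. -/
theorem minors_mul {R : Type*} [CommRing R] {n d e : ℕ} (A : Matrix (Fin n) (Fin d) R)
    (g : Matrix (Fin d) (Fin e) R) (T : Fin n ↪o Fin e) :
    minors (A * g) T = ∑ S : Fin n ↪o Fin d, minors A S * (g.submatrix S T).det := by
  sorry

/-- T5c. -/
theorem minors_mul_left {R : Type*} [CommRing R] {n d : ℕ} (N : Matrix (Fin n) (Fin n) R)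
    (A : Matrix (Fin n) (Fin d) R) : minors (N * A) = N.det • minors A := by
  sorry

/-- T5d (file Tools/MinorsRank.lean). -/
theorem minors_ne_zero_iff {K : Type*} [Field K] {n d : ℕ} (A : Matrix (Fin n) (Fin d) K) :
    minors A ≠ 0 ↔ LinearIndependent K A.row := by
  sorry

/-- T5e (file Tools/MinorsCompl.lean) complementary minors, height form. -/
theorem logHeight_minors_eq_of_mul_eq_zero {K : Type*} [Field K] [AdmissibleAbsValues K]
    {n r d : ℕ} (hd : n + r = d) (A : Matrix (Fin n) (Fin d) K) (B : Matrix (Fin d) (Fin r) K)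
    (hAB : A * B = 0) (hA : LinearIndependent K A.row) (hB : LinearIndependent K B.col) :
    logHeight (minors A) = logHeight (minors B.transpose) := by
  sorry

/-- T5f (file Tools/MinorsCramer.lean) normalisation at one absolute value. -/
theorem exists_det_ne_zero_forall_abv_le_one {K : Type*} [Field K] (v : AbsoluteValue K ℝ)
    {n d : ℕ} (A : Matrix (Fin n) (Fin d) K) (hA : minors A ≠ 0) :
    ∃ g : Matrix (Fin n) (Fin n) K, g.det ≠ 0 ∧ ∀ i c, v ((g * A) i c) ≤ 1 := by
  sorry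

/-- T5g (file Tools/MinorsKer.lean): the kernel of a matrix of full rank is spanned by the vectors
`v_T`, `T` an `(n+1)`-subset of the columns. -/
def kerVec {R : Type*} [CommRing R] {n d : ℕ} (A : Matrix (Fin n) (Fin d) R)
    (T : Fin (n + 1) ↪o Fin d) : Fin d → R :=
  fun c => ∑ i : Fin (n + 1), if T i = c then
    (-1) ^ (i : ℕ) * (A.submatrix id (fun j : Fin n => T (i.succAbove j))).det else 0

theorem span_kerVec {K : Type*} [Field K] {n d : ℕ} (A : Matrix (Fin n) (Fin d) K)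
    (hA : LinearIndependent K A.row) :
    Submodule.span K (Set.range (kerVec A)) = LinearMap.ker A.mulVecLin := by
  sorry

/-! ## Q. Quasi-quadratic functions -/

/-- third difference -/
def cubeDefect {G : Type*} [AddCommGroup G] (X : G → ℝ) (x y z : G) : ℝ :=
  X (x + y + z) - X (x + y) - X (x + z) - X (y + z) + X x + X y + X z

/-- Q1+Q2 (file Tools/QuasiQuad.lean). -/
theorem exists_quadratic_add_additive {G : Type*} [AddCommGroup G] (X : G → ℝ) (C : ℝ)
    (hX : ∀ x y z, |cubeDefect X x y z| ≤ C) :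
    ∃ (q : G → ℝ) (lam : G →+ ℝ) (C' : ℝ),
      (∀ x y, q (x + y) + q (x - y) = 2 * q x + 2 * q y) ∧ ∀ x, |X x - (q x + lam x)| ≤ C' := by
  sorry

/-- Q2' (file Tools/QuasiAdd.lean). -/
theorem exists_additive_of_quasi {G : Type*} [AddCommGroup G] (l : G → ℝ) (C : ℝ)
    (hl : ∀ x y, |l (x + y) - l x - l y| ≤ C) :
    ∃ lam : G →+ ℝ, ∀ x, |l x - lam x| ≤ C := by
  sorry

/-- Q3 (file Tools/AbstractNorthcott.lean). -/
theorem nonneg_and_le_of_translates {G : Type*} [AddCommGroup G] (q : G → ℝ) (mu : G →+ ℝ)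
    (u : G → ℝ) (Z : Finset G) (C : ℝ)
    (hq : ∀ x y, q (x + y) + q (x - y) = 2 * q x + 2 * q y) (hu : ∀ x, 0 ≤ u x)
    (h : ∀ x, ∃ z ∈ Z, u x - C ≤ q (x + z) + mu (x + z)) :
    (∀ x, 0 ≤ q x) ∧ ∃ C', ∀ x, u x ≤ 3 * q x + C' := by
  sorry

end Fermat.Agent.S17.Skel
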